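/-
ROOT lemma (helper270): meromorphic `p`-th roots on exhaustible domains, in particular on the upper
half plane.  Mathlib-only.

Main results (namespace `Fermat.Agent.S29.H270`):
* `analyticOnNhd_of_pow_eq` : a continuous `p`-th root of a nowhere vanishing analytic function is
  analytic.
* `exists_root_on_ball` : local version on a ball with compact closure inside the domain.
* `eq_smul_of_pow_eq` : uniqueness of meromorphic roots (in normal form) up to a `p`-th root of unity.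
* `exists_meromorphicNFOn_root` : the root on an increasing union of balls.
* `exists_root_upperHalfPlane` : the root on `{z | 0 < z.im}`.
-/
import Mathlib

set_option autoImplicit false

open Complex Metric Set Filter Topology Function MeromorphicOn

namespace Fermat.Agent.S29.H270

/-! ### A continuous root of an analytic function is analytic -/

theorem hasDerivAt_of_pow_eq {p : ℕ} (hp : p ≠ 0) {g r : ℂ → ℂ} {z₀ g' : ℂ}
    (hg : HasDerivAt g g' z₀) (hg0 : g z₀ ≠ 0) (hr : ContinuousAt r z₀)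
    (hrg : ∀ᶠ z in 𝓝 z₀, r z ^ p = g z) :
    HasDerivAt r (g' / (p * r z₀ ^ (p - 1))) z₀ := by
  have hr0 : r z₀ ≠ 0 := by
    intro h
    have := hrg.self_of_nhds
    rw [h, zero_pow hp] at this
    exact hg0 this.symm
  set S : ℂ → ℂ := fun z => ∑ i ∈ Finset.range p, r z ^ i * r z₀ ^ (p - 1 - i) with hS
  have hScont : ContinuousAt S z₀ := by
    rw [hS]
    exact tendsto_finsetSum _ (fun i _ => ((hr.pow i).mul continuousAt_const))
  have hS0 : S z₀ = p * r z₀ ^ (p - 1) := by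
    simp only [hS]
    have : ∀ i ∈ Finset.range p, r z₀ ^ i * r z₀ ^ (p - 1 - i) = r z₀ ^ (p - 1) := by
      intro i hi
      rw [← pow_add]
      congr 1
      have := Finset.mem_range.1 hi
      omega
    rw [Finset.sum_congr rfl this]
    simp
  have hS0ne : S z₀ ≠ 0 := by
    rw [hS0]
    exact mul_ne_zero (Nat.cast_ne_zero.2 hp) (pow_ne_zero _ hr0)
  have hSne : ∀ᶠ z in 𝓝 z₀, S z ≠ 0 := hScont.eventually_ne hS0ne
  rw [hasDerivAt_iff_tendsto_slope]
  have hgs := hasDerivAt_iff_tendsto_slope.1 hg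
  have hlim : Tendsto (fun z => slope g z₀ z / S z) (𝓝[≠] z₀) (𝓝 (g' / S z₀)) :=
    hgs.div (hScont.tendsto.mono_left nhdsWithin_le_nhds) hS0ne
  rw [← hS0]
  refine hlim.congr' ?_
  have h1 : ∀ᶠ z in 𝓝[≠] z₀, r z ^ p = g z := hrg.filter_mono nhdsWithin_le_nhds
  have h2 : ∀ᶠ z in 𝓝[≠] z₀, S z ≠ 0 := hSne.filter_mono nhdsWithin_le_nhds
  filter_upwards [h1, h2] with z hz hSz
  rw [slope_def_field, slope_def_field, ← hz, ← hrg.self_of_nhds]
  have hgeom : S z * (r z - r z₀) = r z ^ p - r z₀ ^ p := by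
    simp only [hS]
    exact geom_sum₂_mul (r z) (r z₀) p
  rw [← hgeom]
  field_simp

theorem analyticOnNhd_of_pow_eq {p : ℕ} (hp : p ≠ 0) {U : Set ℂ} (hU : IsOpen U) {g r : ℂ → ℂ}
    (hg : AnalyticOnNhd ℂ g U) (hg0 : ∀ z ∈ U, g z ≠ 0) (hr : ContinuousOn r U)
    (hrg : ∀ z ∈ U, r z ^ p = g z) : AnalyticOnNhd ℂ r U := by
  apply DifferentiableOn.analyticOnNhd _ hU
  intro z hz
  have hUz : U ∈ 𝓝 z := hU.mem_nhds hz
  have := hasDerivAt_of_pow_eq hp (hg z hz).differentiableAt.hasDerivAt (hg0 z hz)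
    (hr.continuousAt hUz) (Filter.eventually_of_mem hUz hrg)
  exact this.differentiableAt.differentiableWithinAt

/-! ### Local roots: finitely many zeros and poles, simply connected domain -/

theorem exists_root_of_finite {p : ℕ} (hp : p ≠ 0) {B : Set ℂ} (hB : IsOpen B)
    (hBs : IsSimplyConnected B) {f : ℂ → ℂ} (hf : MeromorphicOn f B)
    (hfin : (divisor f B).support.Finite)
    (hord : ∀ z ∈ B, ∃ k : ℤ, meromorphicOrderAt f z = ((p * k : ℤ) : WithTop ℤ)) :
    ∃ h : ℂ → ℂ, MeromorphicNFOn h B ∧ h ^ p =ᶠ[codiscreteWithin B] f := by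
  have h₂f : ∀ u : B, meromorphicOrderAt f u ≠ ⊤ := by
    intro u
    obtain ⟨k, hk⟩ := hord u u.2
    rw [hk]
    exact WithTop.coe_ne_top
  obtain ⟨g, hg_an, hg_ne, hfg⟩ := hf.extract_zeros_poles h₂f hfin
  set D : ℂ → ℤ := fun u => divisor f B u with hD
  set D' : ℂ → ℤ := fun u => D u / p with hD'
  have hDD' : ∀ u, D u = D' u * p := by
    intro u
    simp only [hD, hD']
    by_cases hu : u ∈ B
    · obtain ⟨k, hk⟩ := hord u hu
      rw [divisor_apply hf hu, hk]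
      simp only [WithTop.untop₀_coe]
      have hp' : (p : ℤ) ≠ 0 := by exact_mod_cast hp
      rw [Int.mul_ediv_cancel_left _ hp', mul_comm]
    · have : divisor f B u = 0 := by
        by_contra h
        exact hu ((divisor f B).supportWithinDomain h)
      rw [this]
      simp
  have hsupp' : D'.support ⊆ D.support := by
    intro u hu
    simp only [Function.mem_support] at hu ⊢
    intro h
    apply hu
    simp only [hD']
    rw [h]
    simp
  have hDfin : D.support.Finite := hfin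
  have hD'fin : D'.support.Finite := hDfin.subset hsupp'
  set φ' : ℂ → ℂ := ∏ᶠ u, (· - u) ^ D' u with hφ'
  have hφ : (∏ᶠ u, (· - u) ^ divisor f B u : ℂ → ℂ) = φ' ^ p := by
    have hms : (fun u : ℂ => ((· - u) ^ D' u : ℂ → ℂ)).HasFiniteMulSupport := by
      show (Function.mulSupport _).Finite
      rw [Function.FactorizedRational.mulSupport]
      exact hD'fin
    rw [hφ', finprod_pow hms]
    congr 1
    funext u
    have := hDD' u
    simp only [hD] at this
    rw [this, zpow_mul]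
    rfl
  have h0 : (0 : ℂ) ∉ g '' B := by
    rintro ⟨z, hz, hz0⟩
    exact hg_ne ⟨z, hz⟩ hz0
  obtain ⟨r, hrc, hr⟩ := Complex.exists_continuousOn_pow_eq hBs hB hg_an.continuousOn h0 hp
  have hr_an : AnalyticOnNhd ℂ r B :=
    analyticOnNhd_of_pow_eq hp hB hg_an (fun z hz => hg_ne ⟨z, hz⟩) hrc (fun z _ => hr z)
  have hr_ne : ∀ z ∈ B, r z ≠ 0 := by
    intro z hz h
    have := hr z
    rw [h, zero_pow hp] at this
    exact hg_ne ⟨z, hz⟩ this.symm
  refine ⟨φ' * r, ?_, ?_⟩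
  · rw [meromorphicNFOn_mul_iff_left_of_analyticOnNhd hr_an hr_ne]
    exact Function.FactorizedRational.meromorphicNFOn D' B
  · filter_upwards [hfg] with z hz
    rw [hz, hφ]
    simp only [Pi.pow_apply, Pi.mul_apply, Pi.smul_apply', smul_eq_mul, mul_pow, hr z]

/-! ### Uniqueness of roots up to a root of unity -/

theorem mem_nhdsNE_of_mem_codiscreteWithin {V : Set ℂ} (hV : IsOpen V) {s : Set ℂ}
    (hs : s ∈ codiscreteWithin V) {z : ℂ} (hz : z ∈ V) : s ∈ 𝓝[≠] z := by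
  have h1 := (mem_codiscreteWithin_iff_forall_mem_nhdsNE.1 hs) z hz
  have h2 : V ∈ 𝓝[≠] z := mem_nhdsWithin_of_mem_nhds (hV.mem_nhds hz)
  filter_upwards [h1, h2] with y hy hyV
  rcases hy with hy | hy
  · exact hy
  · exact absurd hyV hy

theorem eventuallyEq_nhdsNE_of_codiscreteWithin {V : Set ℂ} (hV : IsOpen V) {a b : ℂ → ℂ}
    (hab : a =ᶠ[codiscreteWithin V] b) {z : ℂ} (hz : z ∈ V) : a =ᶠ[𝓝[≠] z] b :=
  mem_nhdsNE_of_mem_codiscreteWithin hV hab hz

theorem eventuallyEq_codiscreteWithin_of_nhdsNE {V : Set ℂ} {a b : ℂ → ℂ}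
    (hab : ∀ z ∈ V, a =ᶠ[𝓝[≠] z] b) : a =ᶠ[codiscreteWithin V] b := by
  show {x | a x = b x} ∈ codiscreteWithin V
  rw [mem_codiscreteWithin_iff_forall_mem_nhdsNE]
  intro z hz
  filter_upwards [hab z hz] with y hy
  exact Or.inl hy

/-- Orders of a root. -/
theorem order_of_pow_eq {p : ℕ} (hp : p ≠ 0) {f h : ℂ → ℂ} {z : ℂ} (hh : MeromorphicAt h z)
    (e : h ^ p =ᶠ[𝓝[≠] z] f) (hf : meromorphicOrderAt f z ≠ ⊤) :
    meromorphicOrderAt h z ≠ ⊤ ∧
      meromorphicOrderAt f z = (p : WithTop ℤ) * meromorphicOrderAt h z := by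
  have h1 : meromorphicOrderAt (h ^ p) z = meromorphicOrderAt f z := meromorphicOrderAt_congr e
  rw [meromorphicOrderAt_pow hh] at h1
  refine ⟨?_, h1.symm⟩
  intro htop
  rw [htop] at h1
  apply hf
  rw [← h1]
  have : (p : WithTop ℤ) ≠ 0 := by exact_mod_cast hp
  exact WithTop.mul_top this

theorem eq_smul_of_pow_eq {p : ℕ} (hp : p ≠ 0) {V : Set ℂ} (hV : IsOpen V)
    (hVc : IsPreconnected V) {f h h' : ℂ → ℂ} (hh : MeromorphicNFOn h V)
    (hh' : MeromorphicNFOn h' V) (hf : ∀ z ∈ V, meromorphicOrderAt f z ≠ ⊤)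
    (e : h ^ p =ᶠ[codiscreteWithin V] f) (e' : h' ^ p =ᶠ[codiscreteWithin V] f) :
    ∃ ζ : ℂ, ζ ^ p = 1 ∧ ∀ z ∈ V, h' z = ζ * h z := by
  have hpC : (p : WithTop ℤ) ≠ 0 := by exact_mod_cast hp
  -- the quotient
  have hq : MeromorphicOn (h' * h⁻¹) V := hh'.meromorphicOn.mul hh.meromorphicOn.inv
  set Q := toMeromorphicNFOn (h' * h⁻¹) V with hQ
  have hQNF : MeromorphicNFOn Q V := meromorphicNFOn_toMeromorphicNFOn _ _
  -- orders
  have hordh : ∀ z ∈ V, meromorphicOrderAt h z ≠ ⊤ := fun z hz =>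
    (order_of_pow_eq hp (hh.meromorphicOn z hz)
      (eventuallyEq_nhdsNE_of_codiscreteWithin hV e hz) (hf z hz)).1
  have hordh' : ∀ z ∈ V, meromorphicOrderAt h' z ≠ ⊤ := fun z hz =>
    (order_of_pow_eq hp (hh'.meromorphicOn z hz)
      (eventuallyEq_nhdsNE_of_codiscreteWithin hV e' hz) (hf z hz)).1
  have hordeq : ∀ z ∈ V, meromorphicOrderAt h' z = meromorphicOrderAt h z := by
    intro z hz
    have h1 := (order_of_pow_eq hp (hh.meromorphicOn z hz)
      (eventuallyEq_nhdsNE_of_codiscreteWithin hV e hz) (hf z hz)).2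
    have h2 := (order_of_pow_eq hp (hh'.meromorphicOn z hz)
      (eventuallyEq_nhdsNE_of_codiscreteWithin hV e' hz) (hf z hz)).2
    rw [h1] at h2
    lift meromorphicOrderAt h z to ℤ using hordh z hz with a
    lift meromorphicOrderAt h' z to ℤ using hordh' z hz with b
    have h3 : ((p : ℤ) * a : ℤ) = (p : ℤ) * b := by exact_mod_cast h2
    have hp' : (p : ℤ) ≠ 0 := by exact_mod_cast hp
    have := mul_left_cancel₀ hp' h3
    rw [this]
  have hordQ : ∀ z ∈ V, meromorphicOrderAt Q z = 0 := by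
    intro z hz
    rw [hQ, meromorphicOrderAt_toMeromorphicNFOn hq hz,
      meromorphicOrderAt_mul (hh'.meromorphicOn z hz) (hh.meromorphicOn z hz).inv,
      meromorphicOrderAt_inv, hordeq z hz]
    lift meromorphicOrderAt h z to ℤ using hordh z hz with a
    norm_cast
    simp
  have hQan : AnalyticOnNhd ℂ Q V := fun z hz =>
    (hQNF hz).meromorphicOrderAt_nonneg_iff_analyticAt.1 (le_of_eq (hordQ z hz).symm)
  -- `h ≠ 0` and `f ≠ 0` on punctured neighbourhoods
  have hhne : ∀ z ∈ V, ∀ᶠ y in 𝓝[≠] z, h y ≠ 0 := fun z hz =>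
    (meromorphicOrderAt_ne_top_iff_eventually_ne_zero (hh.meromorphicOn z hz)).1 (hordh z hz)
  -- `Q ^ p = 1` on punctured neighbourhoods
  have hQp : ∀ z ∈ V, ∀ᶠ y in 𝓝[≠] z, Q y ^ p = 1 := by
    intro z hz
    have h1 : Q =ᶠ[𝓝[≠] z] h' * h⁻¹ := hq.toMeromorphicNFOn_eq_self_on_nhdsNE hz
    filter_upwards [h1, hhne z hz, eventuallyEq_nhdsNE_of_codiscreteWithin hV e hz,
      eventuallyEq_nhdsNE_of_codiscreteWithin hV e' hz] with y hy hy0 hy1 hy2
    rw [hy]
    simp only [Pi.mul_apply, Pi.inv_apply, Pi.pow_apply] at hy1 hy2 ⊢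
    rw [mul_pow, inv_pow, hy2, ← hy1]
    exact mul_inv_cancel₀ (pow_ne_zero _ hy0)
  have hQp' : ∀ z ∈ V, Q z ^ p = 1 := by
    intro z hz
    have hc : ContinuousAt (fun y => Q y ^ p) z := ((hQan z hz).continuousAt).pow p
    have h1 : Tendsto (fun y => Q y ^ p) (𝓝[≠] z) (𝓝 (Q z ^ p)) :=
      hc.tendsto.mono_left nhdsWithin_le_nhds
    have h2 : Tendsto (fun y => Q y ^ p) (𝓝[≠] z) (𝓝 1) :=
      tendsto_const_nhds.congr' ((hQp z hz).mono fun y hy => hy.symm)
    exact tendsto_nhds_unique h1 h2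
  -- `Q` is constant
  have hQne : ∀ z ∈ V, Q z ≠ 0 := by
    intro z hz h0
    have := hQp' z hz
    rw [h0, zero_pow hp] at this
    exact zero_ne_one this
  have hderiv : V.EqOn (deriv Q) 0 := by
    intro z hz
    have hd : HasDerivAt Q (deriv Q z) z := (hQan z hz).differentiableAt.hasDerivAt
    have h1 : HasDerivAt (fun y => Q y ^ p) ((p : ℂ) * Q z ^ (p - 1) * deriv Q z) z := hd.pow p
    have h2 : (fun y => Q y ^ p) =ᶠ[𝓝 z] fun _ => (1 : ℂ) :=
      Filter.eventually_of_mem (hV.mem_nhds hz) hQp'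
    have h3 : HasDerivAt (fun y => Q y ^ p) 0 z := (hasDerivAt_const z (1 : ℂ)).congr_of_eventuallyEq h2
    have h4 := h1.unique h3
    have h5 : (p : ℂ) * Q z ^ (p - 1) ≠ 0 :=
      mul_ne_zero (Nat.cast_ne_zero.2 hp) (pow_ne_zero _ (hQne z hz))
    simpa [h5] using h4
  obtain ⟨ζ₀, hζ₀⟩ := hV.exists_is_const_of_deriv_eq_zero hVc hQan.differentiableOn hderiv
  by_cases hne : V.Nonempty
  · obtain ⟨z₀, hz₀⟩ := hne
    refine ⟨ζ₀, ?_, ?_⟩
    · rw [← hζ₀ z₀ hz₀]
      exact hQp' z₀ hz₀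
    · intro z hz
      have hζne : ζ₀ ≠ 0 := by
        rw [← hζ₀ z₀ hz₀]
        exact hQne z₀ hz₀
      have hNF : MeromorphicNFAt ((fun _ => ζ₀) * h) z := by
        have : MeromorphicNFOn ((fun _ => ζ₀) * h) V :=
          (meromorphicNFOn_mul_iff_right_of_analyticOnNhd (f := h) (g := fun _ => ζ₀)
            analyticOnNhd_const (fun _ _ => hζne)).2 hh
        exact this hz
      have hev : h' =ᶠ[𝓝[≠] z] (fun _ => ζ₀) * h := by
        have h1 : Q =ᶠ[𝓝[≠] z] h' * h⁻¹ := hq.toMeromorphicNFOn_eq_self_on_nhdsNE hz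
        have h2 : ∀ᶠ y in 𝓝[≠] z, y ∈ V := mem_nhdsWithin_of_mem_nhds (hV.mem_nhds hz)
        filter_upwards [h1, hhne z hz, h2] with y hy hy0 hyV
        simp only [Pi.mul_apply, Pi.inv_apply] at hy ⊢
        rw [← hζ₀ y hyV, hy]
        field_simp
      have := ((hh' hz).eventuallyEq_nhdsNE_iff_eventuallyEq_nhds hNF).1 hev
      simpa using this.self_of_nhds
  · refine ⟨1, one_pow p, fun z hz => absurd ⟨z, hz⟩ hne⟩

/-! ### Gluing along an exhaustion -/

theorem finite_support_divisor_of_subset_compact {f : ℂ → ℂ} {B K : Set ℂ} (hK : IsCompact K)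
    (hBK : B ⊆ K) (hf : MeromorphicOn f K) : (divisor f B).support.Finite := by
  refine ((divisor f K).finiteSupport hK).subset ?_
  intro z hz
  have hzB : z ∈ B := (divisor f B).supportWithinDomain hz
  simp only [Function.mem_support, ne_eq] at hz ⊢
  rw [divisor_apply (hf.mono_set hBK) hzB] at hz
  rw [divisor_apply hf (hBK hzB)]
  exact hz

/-- One step of the gluing: a root on `B` extends to a root on a larger simply connected `B'`. -/
theorem exists_root_extend {p : ℕ} (hp : p ≠ 0) {B B' : Set ℂ} (hB : IsOpen B)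
    (hBc : IsPreconnected B) (hB' : IsOpen B') (hB's : IsSimplyConnected B') (hBB' : B ⊆ B')
    {f : ℂ → ℂ} (hf : MeromorphicOn f B') (hfin : (divisor f B').support.Finite)
    (hord : ∀ z ∈ B', ∃ k : ℤ, meromorphicOrderAt f z = ((p * k : ℤ) : WithTop ℤ))
    {h₀ : ℂ → ℂ} (h₀NF : MeromorphicNFOn h₀ B) (e₀ : h₀ ^ p =ᶠ[codiscreteWithin B] f) :
    ∃ h₁ : ℂ → ℂ, MeromorphicNFOn h₁ B' ∧ h₁ ^ p =ᶠ[codiscreteWithin B'] f ∧
      ∀ z ∈ B, h₁ z = h₀ z := by
  obtain ⟨h', h'NF, e'⟩ := exists_root_of_finite hp hB' hB's hf hfin hord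
  have hfne : ∀ z ∈ B, meromorphicOrderAt f z ≠ ⊤ := by
    intro z hz
    obtain ⟨k, hk⟩ := hord z (hBB' hz)
    rw [hk]
    exact WithTop.coe_ne_top
  have e'B : h' ^ p =ᶠ[codiscreteWithin B] f :=
    eventuallyEq_codiscreteWithin_of_nhdsNE fun z hz =>
      eventuallyEq_nhdsNE_of_codiscreteWithin hB' e' (hBB' hz)
  obtain ⟨ζ, hζ, hζh⟩ := eq_smul_of_pow_eq hp hB hBc h₀NF (fun z hz => h'NF (hBB' hz)) hfne e₀ e'B
  have hζne : ζ ≠ 0 := by
    intro h0
    rw [h0, zero_pow hp] at hζ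
    exact zero_ne_one hζ
  refine ⟨(fun _ => ζ⁻¹) * h', ?_, ?_, ?_⟩
  · exact (meromorphicNFOn_mul_iff_right_of_analyticOnNhd (f := h') (g := fun _ => ζ⁻¹)
      analyticOnNhd_const (fun _ _ => inv_ne_zero hζne)).2 h'NF
  · filter_upwards [e'] with z hz
    simp only [Pi.pow_apply, Pi.mul_apply] at hz ⊢
    rw [mul_pow, inv_pow, hζ, hz]
    simp
  · intro z hz
    simp only [Pi.mul_apply]
    rw [hζh z hz]
    field_simp

theorem exists_meromorphicNFOn_root {p : ℕ} (hp : p ≠ 0) {U : Set ℂ} (B : ℕ → Set ℂ)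
    (hBo : ∀ n, IsOpen (B n)) (hBs : ∀ n, IsSimplyConnected (B n))
    (hBm : Monotone B) (hBU : ⋃ n, B n = U)
    (hBK : ∀ n, ∃ K, IsCompact K ∧ B n ⊆ K ∧ K ⊆ U)
    {f : ℂ → ℂ} (hf : MeromorphicOn f U)
    (hord : ∀ z ∈ U, ∃ k : ℤ, meromorphicOrderAt f z = ((p * k : ℤ) : WithTop ℤ)) :
    ∃ h : ℂ → ℂ, MeromorphicNFOn h U ∧ h ^ p =ᶠ[codiscreteWithin U] f := by
  classical
  have hBsub : ∀ n, B n ⊆ U := fun n => hBU ▸ subset_iUnion B n
  have hfB : ∀ n, MeromorphicOn f (B n) := fun n => hf.mono_set (hBsub n)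
  have hfin : ∀ n, (divisor f (B n)).support.Finite := by
    intro n
    obtain ⟨K, hK, hBK', hKU⟩ := hBK n
    exact finite_support_divisor_of_subset_compact hK hBK' (hf.mono_set hKU)
  have hordB : ∀ n, ∀ z ∈ B n, ∃ k : ℤ, meromorphicOrderAt f z = ((p * k : ℤ) : WithTop ℤ) :=
    fun n z hz => hord z (hBsub n hz)
  have hBc : ∀ n, IsPreconnected (B n) := fun n =>
    (hBs n).isPathConnected.isConnected.isPreconnected
  -- the sequence of compatible roots
  let P : ℕ → (ℂ → ℂ) → Prop := fun n h =>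
    MeromorphicNFOn h (B n) ∧ h ^ p =ᶠ[codiscreteWithin (B n)] f
  have h0 : ∃ h, P 0 h := exists_root_of_finite hp (hBo 0) (hBs 0) (hfB 0) (hfin 0) (hordB 0)
  have hstep : ∀ n (h₀ : {h // P n h}), ∃ h₁ : {h // P (n + 1) h}, ∀ z ∈ B n, h₁.1 z = h₀.1 z := by
    intro n h₀
    obtain ⟨h₁, h₁NF, e₁, hc⟩ := exists_root_extend hp (hBo n) (hBc n) (hBo (n + 1)) (hBs (n + 1))
      (hBm (Nat.le_succ n)) (hfB (n + 1)) (hfin (n + 1)) (hordB (n + 1)) h₀.2.1 h₀.2.2
    exact ⟨⟨h₁, h₁NF, e₁⟩, hc⟩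
  let H : (n : ℕ) → {h // P n h} := fun n =>
    Nat.rec (motive := fun n => {h // P n h}) ⟨h0.choose, h0.choose_spec⟩
      (fun n h₀ => (hstep n h₀).choose) n
  have hHsucc : ∀ n, ∀ z ∈ B n, (H (n + 1)).1 z = (H n).1 z := fun n =>
    (hstep n (H n)).choose_spec
  have hHle : ∀ n m, n ≤ m → ∀ z ∈ B n, (H m).1 z = (H n).1 z := by
    intro n m hnm
    induction m, hnm using Nat.le_induction with
    | base => intro z _; rfl
    | succ m hnm ih =>
      intro z hz
      rw [hHsucc m z (hBm hnm hz), ih z hz]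
  have hex : ∀ z ∈ U, ∃ n, z ∈ B n := by
    intro z hz
    rw [← hBU] at hz
    exact mem_iUnion.1 hz
  let h : ℂ → ℂ := fun z => if hz : z ∈ U then (H (hex z hz).choose).1 z else 0
  have hh : ∀ n, ∀ z ∈ B n, h z = (H n).1 z := by
    intro n z hz
    have hzU : z ∈ U := hBsub n hz
    simp only [h, dif_pos hzU]
    rcases le_total (hex z hzU).choose n with hle | hle
    · exact (hHle _ _ hle z (hex z hzU).choose_spec).symm
    · exact hHle _ _ hle z hz
  have hhev : ∀ n, ∀ z ∈ B n, h =ᶠ[𝓝 z] (H n).1 := fun n z hz =>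
    Filter.eventually_of_mem ((hBo n).mem_nhds hz) (hh n)
  refine ⟨h, ?_, ?_⟩
  · intro z hz
    obtain ⟨n, hn⟩ := hex z hz
    exact (meromorphicNFAt_congr (hhev n z hn)).2 ((H n).2.1 hn)
  · apply eventuallyEq_codiscreteWithin_of_nhdsNE
    intro z hz
    obtain ⟨n, hn⟩ := hex z hz
    have h1 : (H n).1 ^ p =ᶠ[𝓝[≠] z] f :=
      eventuallyEq_nhdsNE_of_codiscreteWithin (hBo n) (H n).2.2 hn
    have h2 : h =ᶠ[𝓝[≠] z] (H n).1 := (hhev n z hn).filter_mono nhdsWithin_le_nhds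
    filter_upwards [h1, h2] with y hy1 hy2
    simp only [Pi.pow_apply] at hy1 ⊢
    rw [hy2, hy1]

/-! ### The upper half plane -/

theorem isSimplyConnected_ball (c : ℂ) {r : ℝ} (hr : 0 < r) : IsSimplyConnected (ball c r) := by
  have : ContractibleSpace (ball c r) := Metric.contractibleSpace_ball hr
  exact SimplyConnectedSpace.ofContractible _

/-- The exhausting balls of the upper half plane. -/
noncomputable def uhpBall (n : ℕ) : Set ℂ :=
  ball (Complex.I * ((n : ℝ) + 2 : ℝ)) (((n : ℝ) + 2) - 1 / ((n : ℝ) + 2))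

/-- The compact sets containing the exhausting balls. -/
noncomputable def uhpClosedBall (n : ℕ) : Set ℂ :=
  closedBall (Complex.I * ((n : ℝ) + 2 : ℝ)) (((n : ℝ) + 2) - 1 / ((n : ℝ) + 2))

theorem uhpRadius_pos (n : ℕ) : (0 : ℝ) < ((n : ℝ) + 2) - 1 / ((n : ℝ) + 2) := by
  have h2 : (2 : ℝ) ≤ (n : ℝ) + 2 := by
    have := Nat.cast_nonneg (α := ℝ) n
    linarith
  have h1 : 1 / ((n : ℝ) + 2) ≤ 1 / 2 := by
    apply one_div_le_one_div_of_le (by norm_num) h2
  linarith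

theorem uhpClosedBall_subset (n : ℕ) : uhpClosedBall n ⊆ {z : ℂ | 0 < z.im} := by
  intro z hz
  simp only [uhpClosedBall, mem_closedBall, Complex.dist_eq] at hz
  have h2 : (0 : ℝ) < (n : ℝ) + 2 := by positivity
  have him : |(z - Complex.I * ((n : ℝ) + 2 : ℝ)).im| ≤ ‖z - Complex.I * ((n : ℝ) + 2 : ℝ)‖ :=
    Complex.abs_im_le_norm _
  have him' : (z - Complex.I * ((n : ℝ) + 2 : ℝ)).im = z.im - ((n : ℝ) + 2) := by
    simp
  rw [him'] at him
  have h3 := (abs_le.1 (him.trans hz)).1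
  have h4 : 0 < 1 / ((n : ℝ) + 2) := by positivity
  show 0 < z.im
  linarith

theorem uhpBall_subset_closedBall (n : ℕ) : uhpBall n ⊆ uhpClosedBall n := ball_subset_closedBall

theorem uhpBall_mono : Monotone uhpBall := by
  apply monotone_nat_of_le_succ
  intro n z hz
  simp only [uhpBall, mem_ball, Complex.dist_eq] at hz ⊢
  have h2 : (0 : ℝ) < (n : ℝ) + 2 := by positivity
  have hle : 1 / ((n : ℝ) + 1 + 2) ≤ 1 / ((n : ℝ) + 2) :=
    one_div_le_one_div_of_le h2 (by linarith)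
  have htri : ‖z - Complex.I * (((n + 1 : ℕ) : ℝ) + 2 : ℝ)‖
      ≤ ‖z - Complex.I * ((n : ℝ) + 2 : ℝ)‖ + 1 := by
    have : z - Complex.I * (((n + 1 : ℕ) : ℝ) + 2 : ℝ)
        = (z - Complex.I * ((n : ℝ) + 2 : ℝ)) + (-Complex.I) := by
      push_cast
      ring
    rw [this]
    refine (norm_add_le _ _).trans ?_
    simp
  push_cast at htri hz ⊢
  linarith

theorem iUnion_uhpBall : ⋃ n, uhpBall n = {z : ℂ | 0 < z.im} := by
  apply Subset.antisymm
  · apply iUnion_subset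
    intro n
    exact (uhpBall_subset_closedBall n).trans (uhpClosedBall_subset n)
  · intro z hz
    have hz : 0 < z.im := hz
    rw [mem_iUnion]
    obtain ⟨n, hn⟩ := exists_nat_gt ((z.re ^ 2 + z.im ^ 2 + 2) / (2 * z.im))
    refine ⟨n, ?_⟩
    simp only [uhpBall, mem_ball, Complex.dist_eq]
    have hr := uhpRadius_pos n
    have h2 : (0 : ℝ) < (n : ℝ) + 2 := by positivity
    apply lt_of_pow_lt_pow_left₀ 2 hr.le
    rw [Complex.sq_norm, Complex.normSq_apply]
    have hre : (z - Complex.I * ((n : ℝ) + 2 : ℝ)).re = z.re := by simp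
    have him : (z - Complex.I * ((n : ℝ) + 2 : ℝ)).im = z.im - ((n : ℝ) + 2) := by simp
    rw [hre, him]
    have hn' : z.re ^ 2 + z.im ^ 2 + 2 < 2 * z.im * (n : ℝ) := by
      have := (div_lt_iff₀ (by positivity : (0 : ℝ) < 2 * z.im)).1 hn
      linarith
    have hsq : (((n : ℝ) + 2) - 1 / ((n : ℝ) + 2)) ^ 2
        = ((n : ℝ) + 2) ^ 2 - 2 + (1 / ((n : ℝ) + 2)) ^ 2 := by
      field_simp
      ring
    rw [hsq]
    have h5 : 0 ≤ (1 / ((n : ℝ) + 2)) ^ 2 := by positivity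
    nlinarith

/-- **ROOT lemma on the upper half plane.**  A meromorphic function on the upper half plane all of
whose orders are (finite and) divisible by `p` is the `p`-th power of a meromorphic function. -/
theorem exists_root_upperHalfPlane {p : ℕ} (hp : p ≠ 0) {f : ℂ → ℂ}
    (hf : MeromorphicOn f {z : ℂ | 0 < z.im})
    (hord : ∀ z : ℂ, 0 < z.im → ∃ k : ℤ, meromorphicOrderAt f z = ((p * k : ℤ) : WithTop ℤ)) :
    ∃ h : ℂ → ℂ, MeromorphicNFOn h {z : ℂ | 0 < z.im} ∧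
      h ^ p =ᶠ[codiscreteWithin {z : ℂ | 0 < z.im}] f :=
  exists_meromorphicNFOn_root hp uhpBall (fun _ => isOpen_ball)
    (fun n => isSimplyConnected_ball _ (uhpRadius_pos n)) uhpBall_mono iUnion_uhpBall
    (fun n => ⟨uhpClosedBall n, isCompact_closedBall _ _, uhpBall_subset_closedBall n,
      uhpClosedBall_subset n⟩) hf hord

end Fermat.Agent.S29.H270
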